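import Mathlib

/-!
# A Chinese remainder lemma with coprimality
-/

set_option autoImplicit false

namespace Fermat.Agent.S52L

/-- if `gcd (a, b, y) = 1` then some `a + t b` is prime to `y` -/
theorem exists_coprime_add {a b y : ℤ} (hy : y ≠ 0)
    (h : ∀ q : ℕ, q.Prime → (q : ℤ) ∣ a → (q : ℤ) ∣ b → ¬ (q : ℤ) ∣ y) :
    ∃ t : ℤ, IsCoprime (a + t * b) y := by
  classical
  refine ⟨∏ q ∈ y.natAbs.primeFactors.filter (fun q : ℕ => ¬ (q : ℤ) ∣ a), (q : ℤ), ?_⟩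
  rw [Int.isCoprime_iff_gcd_eq_one]
  by_contra hne
  obtain ⟨q, hq, hqd⟩ := Nat.exists_prime_and_dvd hne
  have hqZ : Prime (q : ℤ) := Nat.prime_iff_prime_int.1 hq
  have h1 : (q : ℤ) ∣ a + (∏ q ∈ y.natAbs.primeFactors.filter (fun q : ℕ => ¬ (q : ℤ) ∣ a), (q : ℤ)) * b :=
    (Int.natCast_dvd_natCast.2 hqd).trans (Int.gcd_dvd_left _ _)
  have h2 : (q : ℤ) ∣ y := (Int.natCast_dvd_natCast.2 hqd).trans (Int.gcd_dvd_right _ _)
  by_cases hqa : (q : ℤ) ∣ a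
  · have h3 : (q : ℤ) ∣
        (∏ q ∈ y.natAbs.primeFactors.filter (fun q : ℕ => ¬ (q : ℤ) ∣ a), (q : ℤ)) * b :=
      (dvd_add_right hqa).1 h1
    rcases hqZ.dvd_or_dvd h3 with h4 | h4
    · obtain ⟨r, hr, hqr⟩ := hqZ.exists_mem_finset_dvd h4
      rw [Finset.mem_filter] at hr
      have h5 : q ∣ r := Int.natCast_dvd_natCast.1 hqr
      have h6 : q = r := (Nat.prime_dvd_prime_iff_eq hq (Nat.prime_of_mem_primeFactors hr.1)).1 h5
      rw [← h6] at hr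
      exact hr.2 hqa
    · exact h q hq hqa h4 h2
  · have h3 : (q : ℤ) ∣
        (∏ q ∈ y.natAbs.primeFactors.filter (fun q : ℕ => ¬ (q : ℤ) ∣ a), (q : ℤ)) * b := by
      refine Dvd.dvd.mul_right (Finset.dvd_prod_of_mem _ ?_) _
      rw [Finset.mem_filter, Nat.mem_primeFactors]
      exact ⟨⟨hq, Int.natCast_dvd.1 h2, Int.natAbs_ne_zero.2 hy⟩, hqa⟩
    exact hqa ((dvd_add_left h3).1 h1)

/-- the choice of the parameters -/
theorem coprime_crt {B : ℤ} (hB : B ≠ 0) {l : ℕ} (hl : l.Prime) (hlB : ¬ (l : ℤ) ∣ B)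
    {x1 y1 : ℤ} (h : ¬ ((l : ℤ) ∣ x1 ∧ (l : ℤ) ∣ y1)) :
    ∃ x y : ℤ, IsCoprime x y ∧ B ∣ x - 1 ∧ B ∣ y ∧ (l : ℤ) ∣ x - x1 ∧ (l : ℤ) ∣ y - y1 := by
  have hlZ : Prime (l : ℤ) := Nat.prime_iff_prime_int.1 hl
  have hcop : IsCoprime B (l : ℤ) := (hlZ.coprime_iff_not_dvd.2 hlB).symm
  obtain ⟨u, v, huv⟩ := hcop
  have hl0 : (l : ℤ) ≠ 0 := hlZ.ne_zero
  obtain ⟨y, hy0, hyB, hyl⟩ : ∃ y : ℤ, y ≠ 0 ∧ B ∣ y ∧ (l : ℤ) ∣ y - y1 := by
    by_cases h0 : u * B * y1 = 0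
    · refine ⟨B * l, mul_ne_zero hB hl0, Dvd.intro _ rfl, ?_⟩
      have : y1 = v * l * y1 := by linear_combination -y1 * huv + h0
      rw [this]
      exact ⟨B - v * y1, by ring⟩
    · refine ⟨u * B * y1, h0, ⟨u * y1, by ring⟩, ⟨-v * y1, by linear_combination y1 * huv⟩⟩
  have hx0B : B ∣ (v * l + u * B * x1) - 1 :=
    ⟨u * x1 - u, by linear_combination huv⟩
  have hx0l : (l : ℤ) ∣ (v * l + u * B * x1) - x1 :=
    ⟨v - v * x1, by linear_combination x1 * huv⟩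
  obtain ⟨x0, hx0⟩ : ∃ x0, x0 = v * l + u * B * x1 := ⟨_, rfl⟩
  rw [← hx0] at hx0B hx0l
  obtain ⟨t, ht⟩ := exists_coprime_add (a := x0) (b := B * l) hy0 (by
    intro q hq hqx hqb hqy
    have hqZ : Prime (q : ℤ) := Nat.prime_iff_prime_int.1 hq
    rcases hqZ.dvd_or_dvd hqb with h1 | h1
    · have h2 : (q : ℤ) ∣ 1 := by
        have := dvd_sub hqx (h1.trans hx0B)
        simpa using this
      exact hqZ.not_unit (isUnit_of_dvd_one h2)
    · have h2 : q = l := (Nat.prime_dvd_prime_iff_eq hq hl).1 (Int.natCast_dvd_natCast.1 h1)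
      rw [h2] at hqx hqy
      refine h ⟨?_, ?_⟩
      · have := dvd_sub hqx hx0l
        simpa using this
      · have := dvd_sub hqy hyl
        simpa using this)
  refine ⟨x0 + t * (B * l), y, ht, ?_, hyB, ?_, hyl⟩
  · have : x0 + t * (B * l) - 1 = (x0 - 1) + B * (t * l) := by ring
    rw [this]
    exact dvd_add hx0B (Dvd.intro _ rfl)
  · have : x0 + t * (B * l) - x1 = (x0 - x1) + l * (t * B) := by ring
    rw [this]
    exact dvd_add hx0l (Dvd.intro _ rfl)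

end Fermat.Agent.S52L
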