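import Mathlib

/-!
# The icosahedral forms
-/

set_option autoImplicit false

namespace Fermat.Agent.S52L

variable {R : Type*} [CommRing R]

/-- the form of degree 12 -/
def DD (a b : R) : R := a * b * (a ^ 10 - 11 * a ^ 5 * b ^ 5 - b ^ 10)

/-- the form of degree 20 -/
def C4 (a b : R) : R :=
  a ^ 20 + 228 * a ^ 15 * b ^ 5 + 494 * a ^ 10 * b ^ 10 - 228 * a ^ 5 * b ^ 15 + b ^ 20

/-- the form of degree 30 (normalised so that `(1, 1)` gives the curve 11a1) -/
def C6 (a b : R) : R :=
  -(a ^ 30 + b ^ 30) + 522 * (a ^ 25 * b ^ 5 - a ^ 5 * b ^ 25) +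
    10005 * (a ^ 20 * b ^ 10 + a ^ 10 * b ^ 20)

/-- the partial derivative of `DD` in the first variable -/
def Da (a b : R) : R := b * (11 * a ^ 10 - 66 * a ^ 5 * b ^ 5 - b ^ 10)

/-- the partial derivative of `DD` in the second variable -/
def Db (a b : R) : R := a * (a ^ 10 - 66 * a ^ 5 * b ^ 5 - 11 * b ^ 10)

theorem syzygy (a b : R) : C4 a b ^ 3 - C6 a b ^ 2 = 1728 * DD a b ^ 5 := by
  unfold C4 C6 DD
  ring

/-- Euler's relation -/
theorem euler (a b : R) : a * Da a b + b * Db a b = 12 * DD a b := by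
  unfold Da Db DD
  ring

/-- the first coordinate of `x w + y v₁(w)` -/
def va (a b x y : R) : R := x * a - y * Db a b

/-- the second coordinate of `x w + y v₁(w)` -/
def vb (a b x y : R) : R := x * b + y * Da a b

theorem va_one (a b : R) : va a b 1 0 = a := by simp [va]

theorem vb_one (a b : R) : vb a b 1 0 = b := by simp [vb]

section map

variable {S : Type*} [CommRing S] (f : R →+* S)

theorem map_DD (a b : R) : f (DD a b) = DD (f a) (f b) := by
  simp [DD, map_ofNat]

theorem map_C4 (a b : R) : f (C4 a b) = C4 (f a) (f b) := by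
  simp [C4, map_ofNat]

theorem map_C6 (a b : R) : f (C6 a b) = C6 (f a) (f b) := by
  simp [C6, map_ofNat]

theorem map_Da (a b : R) : f (Da a b) = Da (f a) (f b) := by
  simp [Da, map_ofNat]

theorem map_Db (a b : R) : f (Db a b) = Db (f a) (f b) := by
  simp [Db, map_ofNat]

theorem map_va (a b x y : R) : f (va a b x y) = va (f a) (f b) (f x) (f y) := by
  simp [va, map_Db]

theorem map_vb (a b x y : R) : f (vb a b x y) = vb (f a) (f b) (f x) (f y) := by
  simp [vb, map_Da]

end map

/-- homogeneity -/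
theorem DD_smul (t a b : R) : DD (t * a) (t * b) = t ^ 12 * DD a b := by unfold DD; ring

theorem C4_smul (t a b : R) : C4 (t * a) (t * b) = t ^ 20 * C4 a b := by unfold C4; ring

theorem C6_smul (t a b : R) : C6 (t * a) (t * b) = t ^ 30 * C6 a b := by unfold C6; ring

/-- `DD` and `C4` have no common zero away from `5` -/
theorem eq_zero_of_DD_C4 [IsDomain R] (h5 : (5 : R) ≠ 0) {a b : R} (hD : DD a b = 0)
    (h4 : C4 a b = 0) : a = 0 ∧ b = 0 := by
  have key : a = 0 ∨ b = 0 → a = 0 ∧ b = 0 := by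
    rintro (rfl | rfl)
    · have : b ^ 20 = 0 := by rw [← h4]; unfold C4; ring
      exact ⟨rfl, by simpa using this⟩
    · have : a ^ 20 = 0 := by rw [← h4]; unfold C4; ring
      exact ⟨by simpa using this, rfl⟩
  unfold DD at hD
  rcases mul_eq_zero.1 hD with h | h
  · exact key (mul_eq_zero.1 h)
  · have h1 : (5 : R) ^ 5 * (a ^ 10 * b ^ 10) = 0 := by
      unfold C4 at h4
      linear_combination h4 - (a ^ 10 + 239 * a ^ 5 * b ^ 5 - b ^ 10) * h
    have h2 : a ^ 10 * b ^ 10 = 0 := (mul_eq_zero.1 h1).resolve_left (pow_ne_zero 5 h5)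
    rcases mul_eq_zero.1 h2 with h3 | h3
    · exact key (Or.inl (by simpa using h3))
    · exact key (Or.inr (by simpa using h3))

end Fermat.Agent.S52L
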