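import Fermat.Agent.S52L.Forms
import Fermat.Prelude.Def_FLTPrelim_Modularity

/-!
# Semistable members of the family of curves with a given 5-torsion
-/

set_option autoImplicit false

namespace Fermat.Agent.S52L

noncomputable section

local notation "Ω" => AlgebraicClosure ℚ

local notation "𝒪" => integralClosure ℤ (AlgebraicClosure ℚ)

/-- common denominators -/
theorem exists_den (a b : Ω) : ∃ (n : ℤ) (α β : 𝒪), n ≠ 0 ∧ (α : Ω) = n * a ∧ (β : Ω) = n * b := by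
  have hz : ∀ z : Ω, IsAlgebraic ℤ z := fun z =>
    (IsFractionRing.isAlgebraic_iff ℤ ℚ Ω).2 ((AlgebraicClosure.isAlgebraic ℚ).isAlgebraic z)
  obtain ⟨n1, h1, h1'⟩ := (hz a).exists_integral_multiple
  obtain ⟨n2, h2, h2'⟩ := (hz b).exists_integral_multiple
  have i1 : IsIntegral ℤ (n2 • (n1 • a)) := h1'.smul n2
  have i2 : IsIntegral ℤ (n1 • (n2 • b)) := h2'.smul n1
  refine ⟨n1 * n2, ⟨_, i1⟩, ⟨_, i2⟩, mul_ne_zero h1 h2, ?_, ?_⟩
  · change n2 • (n1 • a) = _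
    rw [zsmul_eq_mul, zsmul_eq_mul]
    push_cast
    ring
  · change n1 • (n2 • b) = _
    rw [zsmul_eq_mul, zsmul_eq_mul]
    push_cast
    ring

/-- congruences for rational values -/
theorem close {n B' : ℤ} (hn : n ≠ 0) (hB' : B' ≠ 0) {d : ℕ} (hd : d ≤ 330) {z1 z2 : 𝒪}
    (hz : z1 - z2 ∈ Ideal.span {((n ^ 330 * B' : ℤ) : 𝒪)}) {r : ℚ} {m0 : ℤ}
    (h1 : (z1 : Ω) = (n : Ω) ^ d * algebraMap ℚ Ω r) (h2 : (z2 : Ω) = (n : Ω) ^ d * m0) :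
    ∃ k : ℤ, algebraMap ℚ Ω r = m0 + B' * k := by
  obtain ⟨z, hz'⟩ := Ideal.mem_span_singleton'.1 hz
  have h3 := congrArg (fun w : 𝒪 => (w : Ω)) hz'
  simp only [Subalgebra.coe_sub, Subalgebra.coe_mul] at h3
  have hnΩ : (n : Ω) ≠ 0 := by exact_mod_cast hn
  have hBΩ : (B' : Ω) ≠ 0 := by exact_mod_cast hB'
  have e0 : (((n ^ 330 * B' : ℤ) : 𝒪) : Ω) = (n : Ω) ^ 330 * B' := by push_cast; rfl
  rw [e0, h1, h2] at h3
  obtain ⟨e, he⟩ := Nat.exists_eq_add_of_le hd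
  have h4 : algebraMap ℚ Ω r - m0 = B' * ((n : Ω) ^ e * (z : Ω)) := by
    apply mul_left_cancel₀ (pow_ne_zero d hnΩ)
    rw [he, pow_add] at h3
    linear_combination -h3
  have h5 : algebraMap ℚ Ω ((r - m0) / B') = (n : Ω) ^ e * (z : Ω) := by
    rw [map_div₀, map_sub, map_intCast, map_intCast, h4, mul_div_cancel_left₀ _ hBΩ]
  have h6 : IsIntegral ℤ (algebraMap ℚ Ω ((r - m0) / B')) := by
    rw [h5]
    have h7 : (((n : 𝒪) ^ e * z : 𝒪) : Ω) = (n : Ω) ^ e * (z : Ω) := by push_cast; rfl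
    rw [← h7]
    exact ((n : 𝒪) ^ e * z).2
  have h7 : IsIntegral ℤ ((r - m0) / B' : ℚ) :=
    (isIntegral_algebraMap_iff (algebraMap ℚ Ω).injective).1 h6
  obtain ⟨k, hk⟩ := IsIntegrallyClosed.isIntegral_iff.1 h7
  refine ⟨k, ?_⟩
  have h8 : (k : Ω) = algebraMap ℚ Ω ((r - m0) / B') := by rw [← hk]; simp
  rw [h8, map_div₀, map_sub, map_intCast, map_intCast, mul_div_cancel₀ _ hBΩ]
  ring

/-- a maximal ideal above `l` -/
theorem exists_max (l : ℕ) [Fact l.Prime] :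
    ∃ 𝔐 : Ideal 𝒪, 𝔐.IsMaximal ∧ ∀ m : ℤ, (m : 𝒪) ∈ 𝔐 ↔ (l : ℤ) ∣ m := by
  haveI hmax : (Ideal.span {(l : ℤ)}).IsMaximal :=
    PrincipalIdealRing.isMaximal_of_irreducible
      (Nat.prime_iff_prime_int.1 (Fact.out : l.Prime)).irreducible
  obtain ⟨Q, hQ, hQ'⟩ := Ideal.exists_ideal_over_maximal_of_isIntegral (S := 𝒪)
    (Ideal.span {(l : ℤ)}) (by
      rw [(RingHom.injective_iff_ker_eq_bot (algebraMap ℤ 𝒪)).1
        (FaithfulSMul.algebraMap_injective ℤ 𝒪)]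
      exact bot_le)
  refine ⟨Q, hQ, fun m => ?_⟩
  rw [← Ideal.mem_span_singleton, ← hQ', Ideal.mem_comap]
  simp

/-- homogeneity of the derivatives -/
theorem Da_smul {R : Type*} [CommRing R] (t a b : R) : Da (t * a) (t * b) = t ^ 11 * Da a b := by
  unfold Da; ring

theorem Db_smul {R : Type*} [CommRing R] (t a b : R) : Db (t * a) (t * b) = t ^ 11 * Db a b := by
  unfold Db; ring

/-- the integral coordinates -/
def V1 {R : Type*} [CommRing R] (n α β x y : R) : R := x * n ^ 10 * α - y * Db α β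

/-- the integral coordinates -/
def V2 {R : Type*} [CommRing R] (n α β x y : R) : R := x * n ^ 10 * β + y * Da α β

theorem V1_eq {R : Type*} [CommRing R] (n a b x y : R) :
    V1 n (n * a) (n * b) x y = n ^ 11 * va a b x y := by
  rw [V1, Db_smul, va]; ring

theorem V2_eq {R : Type*} [CommRing R] (n a b x y : R) :
    V2 n (n * a) (n * b) x y = n ^ 11 * vb a b x y := by
  rw [V2, Da_smul, vb]; ring

section curve

variable (W : WeierstrassCurve ℤ) (M' k4 k6 : ℤ)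

/-- the perturbed curve -/
def pert : WeierstrassCurve ℤ :=
  ⟨W.a₁, W.a₂, W.a₃, W.a₄ - 864 * M' * k4, W.a₆ - M' * (72 * W.b₂ * k4 + 48 * k6)⟩

theorem pert_c4 : (pert W M' k4 k6).c₄ = W.c₄ + 41472 * M' * k4 := by
  simp only [pert, WeierstrassCurve.c₄, WeierstrassCurve.b₂, WeierstrassCurve.b₄]
  ring

theorem pert_c6 : (pert W M' k4 k6).c₆ = W.c₆ + 41472 * M' * k6 := by
  simp only [pert, WeierstrassCurve.c₆, WeierstrassCurve.b₂, WeierstrassCurve.b₄,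
    WeierstrassCurve.b₆]
  ring

theorem pert_delta : ∃ z : ℤ, (pert W M' k4 k6).Δ = W.Δ + M' * z := by
  have h1 := (pert W M' k4 k6).c_relation
  have h2 := W.c_relation
  rw [pert_c4, pert_c6] at h1
  refine ⟨24 * (k4 * ((W.c₄ + 41472 * M' * k4) ^ 2 + (W.c₄ + 41472 * M' * k4) * W.c₄ +
    W.c₄ ^ 2) - k6 * ((W.c₆ + 41472 * M' * k6) + W.c₆)), ?_⟩
  have h3 : (1728 : ℤ) ≠ 0 := by norm_num
  apply mul_left_cancel₀ h3
  linear_combination h1 - h2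

end curve

/-- **Semistable members of the family.** -/
theorem exists_model (W : WeierstrassCurve ℤ) (hΔ : W.Δ ≠ 0) (hss : W.IsSemistableModel) {a b : Ω}
    (h4 : C4 a b = (W.Δ : Ω) ^ 8 * W.c₄) (h6 : C6 a b = (W.Δ : Ω) ^ 12 * W.c₆)
    (hD : DD a b = (W.Δ : Ω) ^ 5)
    (hr4 : ∀ x y : ℤ, ∃ r : ℚ, C4 (va a b x y) (vb a b x y) = algebraMap ℚ Ω r)
    (hr6 : ∀ x y : ℤ, ∃ r : ℚ, C6 (va a b x y) (vb a b x y) = algebraMap ℚ Ω r)
    (hrD : ∀ x y : ℤ, ∃ r : ℚ, DD (va a b x y) (vb a b x y) = algebraMap ℚ Ω r) :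
    ∃ B : ℤ, B ≠ 0 ∧ ∀ x y : ℤ, IsCoprime x y → B ∣ x - 1 → B ∣ y →
      ∃ W' : WeierstrassCurve ℤ, W'.Δ ≠ 0 ∧ W'.IsSemistableModel ∧
        C4 (va a b x y) (vb a b x y) = (W.Δ : Ω) ^ 8 * W'.c₄ ∧
        C6 (va a b x y) (vb a b x y) = (W.Δ : Ω) ^ 12 * W'.c₆ ∧
        DD (va a b x y) (vb a b x y) ^ 5 = (W.Δ : Ω) ^ 24 * W'.Δ := by
  obtain ⟨n, α, β, hn, hα, hβ⟩ := exists_den a b
  obtain ⟨δ, hδ⟩ : ∃ δ, δ = W.Δ := ⟨_, rfl⟩
  rw [← hδ] at h4 h6 hD hΔ ⊢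
  obtain ⟨M', hM'⟩ : ∃ M', M' = 60 * n * δ := ⟨_, rfl⟩
  have hM'0 : M' ≠ 0 := by rw [hM']; exact mul_ne_zero (mul_ne_zero (by norm_num) hn) hΔ
  obtain ⟨B', hB'⟩ : ∃ B', B' = δ ^ 12 * (41472 * M') := ⟨_, rfl⟩
  have hB'0 : B' ≠ 0 := by
    rw [hB']; exact mul_ne_zero (pow_ne_zero _ hΔ) (mul_ne_zero (by norm_num) hM'0)
  refine ⟨n ^ 330 * B', mul_ne_zero (pow_ne_zero _ hn) hB'0, fun x y hxy hx hy => ?_⟩
  have hnΩ : (n : Ω) ≠ 0 := by exact_mod_cast hn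
  have hδΩ : (δ : Ω) ≠ 0 := by exact_mod_cast hΔ
  -- the integral coordinates
  obtain ⟨v1, hv1⟩ : ∃ v1 : 𝒪, v1 = V1 (n : 𝒪) α β x y := ⟨_, rfl⟩
  obtain ⟨v2, hv2⟩ : ∃ v2 : 𝒪, v2 = V2 (n : 𝒪) α β x y := ⟨_, rfl⟩
  have hv1Ω : (v1 : Ω) = (n : Ω) ^ 11 * va a b x y := by
    rw [hv1, ← V1_eq, ← hα, ← hβ]
    simp only [V1, Db]
    push_cast
    rfl
  have hv2Ω : (v2 : Ω) = (n : Ω) ^ 11 * vb a b x y := by
    rw [hv2, ← V2_eq, ← hα, ← hβ]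
    simp only [V2, Da]
    push_cast
    rfl
  -- reduction modulo `B`
  obtain ⟨I, hI⟩ : ∃ I : Ideal 𝒪, I = Ideal.span {((n ^ 330 * B' : ℤ) : 𝒪)} := ⟨_, rfl⟩
  have hBI : ((n ^ 330 * B' : ℤ) : 𝒪) ∈ I := by rw [hI]; exact Ideal.mem_span_singleton_self _
  have hdI : ∀ z : ℤ, n ^ 330 * B' ∣ z → (z : 𝒪) ∈ I := by
    rintro z ⟨t, rfl⟩
    rw [Int.cast_mul]
    exact I.mul_mem_right _ hBI
  have hqx : Ideal.Quotient.mk I (x : 𝒪) = 1 := by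
    have h1 := Ideal.Quotient.eq_zero_iff_mem.2 (hdI _ hx)
    rw [Int.cast_sub, Int.cast_one, map_sub, map_one, sub_eq_zero] at h1
    exact h1
  have hqy : Ideal.Quotient.mk I (y : 𝒪) = 0 := Ideal.Quotient.eq_zero_iff_mem.2 (hdI _ hy)
  have hq1 : Ideal.Quotient.mk I v1 = Ideal.Quotient.mk I ((n : 𝒪) ^ 10 * α) := by
    rw [hv1, V1, map_sub, map_mul, map_mul, map_mul (Ideal.Quotient.mk I) (y : 𝒪), hqx, hqy,
      one_mul, zero_mul, sub_zero, ← map_mul]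
  have hq2 : Ideal.Quotient.mk I v2 = Ideal.Quotient.mk I ((n : 𝒪) ^ 10 * β) := by
    rw [hv2, V2, map_add, map_mul, map_mul, map_mul (Ideal.Quotient.mk I) (y : 𝒪), hqx, hqy,
      one_mul, zero_mul, add_zero, ← map_mul]
  have hw1 : (((n : 𝒪) ^ 10 * α : 𝒪) : Ω) = (n : Ω) ^ 11 * a := by
    push_cast
    rw [hα]
    ring
  have hw2 : (((n : 𝒪) ^ 10 * β : 𝒪) : Ω) = (n : Ω) ^ 11 * b := by
    push_cast
    rw [hβ]
    ring
  have hc4 : ∀ z w : 𝒪, ((C4 z w : 𝒪) : Ω) = C4 (z : Ω) (w : Ω) := map_C4 (algebraMap 𝒪 Ω)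
  have hc6 : ∀ z w : 𝒪, ((C6 z w : 𝒪) : Ω) = C6 (z : Ω) (w : Ω) := map_C6 (algebraMap 𝒪 Ω)
  have hcD : ∀ z w : 𝒪, ((DD z w : 𝒪) : Ω) = DD (z : Ω) (w : Ω) := map_DD (algebraMap 𝒪 Ω)
  -- the three values
  obtain ⟨r4, hr4⟩ := hr4 x y
  obtain ⟨r6, hr6⟩ := hr6 x y
  obtain ⟨rD, hrD⟩ := hrD x y
  obtain ⟨k4, hk4⟩ := close hn hB'0 (d := 220) (by norm_num) (z1 := C4 v1 v2)
    (z2 := C4 ((n : 𝒪) ^ 10 * α) ((n : 𝒪) ^ 10 * β)) (by
      rw [← hI, ← Ideal.Quotient.eq, map_C4, map_C4, hq1, hq2]) (r := r4) (m0 := δ ^ 8 * W.c₄)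
    (by rw [hc4, hv1Ω, hv2Ω, C4_smul, ← hr4, ← pow_mul])
    (by rw [hc4, hw1, hw2, C4_smul, h4, ← pow_mul]; push_cast; ring)
  obtain ⟨k6, hk6⟩ := close hn hB'0 (d := 330) (by norm_num) (z1 := C6 v1 v2)
    (z2 := C6 ((n : 𝒪) ^ 10 * α) ((n : 𝒪) ^ 10 * β)) (by
      rw [← hI, ← Ideal.Quotient.eq, map_C6, map_C6, hq1, hq2]) (r := r6) (m0 := δ ^ 12 * W.c₆)
    (by rw [hc6, hv1Ω, hv2Ω, C6_smul, ← hr6, ← pow_mul])
    (by rw [hc6, hw1, hw2, C6_smul, h6, ← pow_mul]; push_cast; ring)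
  obtain ⟨kD, hkD⟩ := close hn hB'0 (d := 132) (by norm_num) (z1 := DD v1 v2)
    (z2 := DD ((n : 𝒪) ^ 10 * α) ((n : 𝒪) ^ 10 * β)) (by
      rw [← hI, ← Ideal.Quotient.eq, map_DD, map_DD, hq1, hq2]) (r := rD) (m0 := δ ^ 5)
    (by rw [hcD, hv1Ω, hv2Ω, DD_smul, ← hrD, ← pow_mul])
    (by rw [hcD, hw1, hw2, DD_smul, hD, ← pow_mul]; push_cast; ring)
  rw [← hr4] at hk4
  rw [← hr6] at hk6
  rw [← hrD] at hkD
  -- the curve
  obtain ⟨W', hW'⟩ : ∃ W', W' = pert W M' (δ ^ 4 * k4) k6 := ⟨_, rfl⟩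
  have f4 : W'.c₄ = W.c₄ + 41472 * M' * (δ ^ 4 * k4) := by rw [hW', pert_c4]
  have f6 : W'.c₆ = W.c₆ + 41472 * M' * k6 := by rw [hW', pert_c6]
  obtain ⟨z, hz⟩ := pert_delta W M' (δ ^ 4 * k4) k6
  rw [← hW', ← hδ] at hz
  have g4 : C4 (va a b x y) (vb a b x y) = (δ : Ω) ^ 8 * W'.c₄ := by
    rw [hk4, f4, hB']; push_cast; ring
  have g6 : C6 (va a b x y) (vb a b x y) = (δ : Ω) ^ 12 * W'.c₆ := by
    rw [hk6, f6, hB']; push_cast; ring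
  have gD : DD (va a b x y) (vb a b x y) ^ 5 = (δ : Ω) ^ 24 * W'.Δ := by
    have h1 := syzygy (va a b (x : Ω) y) (vb a b x y)
    have h2 := congrArg (Int.cast : ℤ → Ω) W'.c_relation
    push_cast at h2
    rw [g4, g6] at h1
    apply mul_left_cancel₀ (show (1728 : Ω) ≠ 0 by norm_num)
    linear_combination -h1 - (δ : Ω) ^ 24 * h2
  refine ⟨W', ?_, ?_, g4, g6, gD⟩
  · intro h0
    rw [h0] at hz
    have h1 : M' ∣ δ := ⟨-z, by linear_combination -hz⟩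
    have h2 : 60 * n * δ ∣ 1 * δ := by rwa [← hM', one_mul]
    have h3 := Int.dvd_of_mul_dvd_mul_right hΔ h2
    have h4 : (60 : ℤ) ∣ 1 := (Dvd.intro _ rfl).trans h3
    norm_num at h4
  · intro l hl hld hlc
    haveI : Fact l.Prime := ⟨hl⟩
    have hlZ : Prime (l : ℤ) := Nat.prime_iff_prime_int.1 hl
    by_cases hlM : (l : ℤ) ∣ M'
    · refine hss l hl ?_ ?_
      · rw [← hδ]
        have : δ = W'.Δ - M' * z := by rw [hz]; ring
        rw [this]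
        exact dvd_sub hld (hlM.mul_right _)
      · have : W.c₄ = W'.c₄ - M' * (41472 * (δ ^ 4 * k4)) := by rw [f4]; ring
        rw [this]
        exact dvd_sub hlc (hlM.mul_right _)
    · -- a maximal ideal over `l`
      obtain ⟨𝔐, h𝔐, hl𝔐⟩ := exists_max l
      haveI : 𝔐.IsPrime := h𝔐.isPrime
      obtain ⟨d, hd⟩ : ∃ d, d = δ ^ 5 + B' * kD := ⟨_, rfl⟩
      have hdΩ : DD (va a b x y) (vb a b x y) = (d : Ω) := by
        rw [hkD, hd]; push_cast; ring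
      have hd5 : d ^ 5 = δ ^ 24 * W'.Δ := by
        have : ((d ^ 5 : ℤ) : Ω) = ((δ ^ 24 * W'.Δ : ℤ) : Ω) := by
          push_cast
          rw [← hdΩ, gD]
        exact_mod_cast this
      have hld' : (l : ℤ) ∣ d := by
        refine hlZ.dvd_of_dvd_pow (n := 5) ?_
        rw [hd5]
        exact hld.mul_left _
      have e1 : DD v1 v2 = (n : 𝒪) ^ 132 * (d : 𝒪) := by
        apply Subtype.ext
        change ((DD v1 v2 : 𝒪) : Ω) = _
        rw [hcD, hv1Ω, hv2Ω, DD_smul, hdΩ]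
        push_cast
        rw [← pow_mul]
      have e2 : C4 v1 v2 = (n : 𝒪) ^ 220 * ((δ : 𝒪) ^ 8 * (W'.c₄ : 𝒪)) := by
        apply Subtype.ext
        change ((C4 v1 v2 : 𝒪) : Ω) = _
        rw [hc4, hv1Ω, hv2Ω, C4_smul, g4]
        push_cast
        rw [← pow_mul]
      have m1 : DD v1 v2 ∈ 𝔐 := by
        rw [e1]; exact 𝔐.mul_mem_left _ ((hl𝔐 d).2 hld')
      have m2 : C4 v1 v2 ∈ 𝔐 := by
        rw [e2]; exact 𝔐.mul_mem_left _ (𝔐.mul_mem_left _ ((hl𝔐 _).2 hlc))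
      have hnot : ∀ m : ℤ, m ∣ M' → (m : 𝒪) ∉ 𝔐 := fun m hm h =>
        hlM (((hl𝔐 m).1 h).trans hm)
      have h5' : (5 : 𝒪 ⧸ 𝔐) ≠ 0 := by
        intro h
        refine hnot 5 ?_ ?_
        · rw [hM']; exact ⟨12 * n * δ, by ring⟩
        · rw [← Ideal.Quotient.eq_zero_iff_mem, Int.cast_ofNat, map_ofNat]
          exact h
      obtain ⟨q1, q2⟩ := eq_zero_of_DD_C4 h5'
        (a := Ideal.Quotient.mk 𝔐 v1) (b := Ideal.Quotient.mk 𝔐 v2)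
        (by rw [← map_DD]; exact Ideal.Quotient.eq_zero_iff_mem.2 m1)
        (by rw [← map_C4]; exact Ideal.Quotient.eq_zero_iff_mem.2 m2)
      rw [Ideal.Quotient.eq_zero_iff_mem] at q1 q2
      -- `12 n^a δ^5` times `x` and `y`
      have hDab : DD α β = (n : 𝒪) ^ 12 * (δ : 𝒪) ^ 5 := by
        apply Subtype.ext
        change ((DD α β : 𝒪) : Ω) = _
        rw [hcD, hα, hβ, DD_smul, hD]
        push_cast
        rfl
      have hu := euler α β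
      rw [hDab] at hu
      have s1 : ((12 * n ^ 12 * δ ^ 5 * y : ℤ) : 𝒪) = α * v2 - β * v1 := by
        rw [hv1, hv2, V1, V2]
        push_cast
        linear_combination (-(y : 𝒪)) * hu
      have s2 : ((12 * n ^ 22 * δ ^ 5 * x : ℤ) : 𝒪) = Da α β * v1 + Db α β * v2 := by
        rw [hv1, hv2, V1, V2]
        push_cast
        linear_combination (-(x : 𝒪) * (n : 𝒪) ^ 10) * hu
      have t1 : (l : ℤ) ∣ 12 * n ^ 12 * δ ^ 5 * y := by
        rw [← hl𝔐, s1]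
        exact 𝔐.sub_mem (𝔐.mul_mem_left _ q2) (𝔐.mul_mem_left _ q1)
      have t2 : (l : ℤ) ∣ 12 * n ^ 22 * δ ^ 5 * x := by
        rw [← hl𝔐, s2]
        exact 𝔐.add_mem (𝔐.mul_mem_left _ q1) (𝔐.mul_mem_left _ q2)
      have u1 : ¬ (l : ℤ) ∣ 12 := fun h => hlM (h.trans (by rw [hM']; exact ⟨5 * n * δ, by ring⟩))
      have u2 : ¬ (l : ℤ) ∣ n := fun h => hlM (h.trans (by rw [hM']; exact ⟨60 * δ, by ring⟩))
      have u3 : ¬ (l : ℤ) ∣ δ := fun h => hlM (h.trans (by rw [hM']; exact ⟨60 * n, by ring⟩))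
      have w1 : (l : ℤ) ∣ y := by
        refine (hlZ.dvd_or_dvd t1).resolve_left fun h => ?_
        rcases hlZ.dvd_or_dvd h with h | h
        · rcases hlZ.dvd_or_dvd h with h | h
          · exact u1 h
          · exact u2 (hlZ.dvd_of_dvd_pow h)
        · exact u3 (hlZ.dvd_of_dvd_pow h)
      have w2 : (l : ℤ) ∣ x := by
        refine (hlZ.dvd_or_dvd t2).resolve_left fun h => ?_
        rcases hlZ.dvd_or_dvd h with h | h
        · rcases hlZ.dvd_or_dvd h with h | h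
          · exact u1 h
          · exact u2 (hlZ.dvd_of_dvd_pow h)
        · exact u3 (hlZ.dvd_of_dvd_pow h)
      exact hlZ.not_unit (hxy.isUnit_of_dvd' w2 w1)

end

end Fermat.Agent.S52L
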